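import Mathlib.Data.Nat.Digits.Lemmas
import Mathlib.Data.Nat.Count
import Mathlib.Data.Int.CardIntervalMod
import Mathlib.Algebra.Order.BigOperators.Ring.Finset
import Mathlib.Tactic

/-!
# The digit stream of Champernowne and its block counts

The digits in base `b` of `1, 2, 3, …` one after another. A block of length `k` starts about
`n log n / b ^ k` times inside the first `n` words, with error `O (n)`: at each distance from the
end of a word the block is met periodically.
-/

set_option autoImplicit false

namespace FA.NormalNumbers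

/-- The position of the first digit of `n + 1`. -/
def start (b n : ℕ) : ℕ := ∑ m ∈ Finset.range n, (Nat.log b (m + 1) + 1)

theorem start_succ (b n : ℕ) : start b (n + 1) = start b n + (Nat.log b (n + 1) + 1) :=
  Finset.sum_range_succ _ _

theorem le_start (b n : ℕ) : n ≤ start b n := by
  induction n with
  | zero => exact Nat.zero_le _
  | succ n ih => rw [start_succ]; omega

theorem start_mono (b : ℕ) : Monotone (start b) :=
  monotone_nat_of_le_succ fun n => by rw [start_succ]; omega

theorem exists_lt_start (b i : ℕ) : ∃ n, i < start b (n + 1) := ⟨i, le_start b (i + 1)⟩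

/-- The word that holds position `i`. -/
def wordIndex (b i : ℕ) : ℕ := Nat.find (exists_lt_start b i)

/-- The digit at position `i` of `1, 2, 3, …` written in base `b` one after another. -/
def champernowneDigit (b i : ℕ) : ℕ :=
  (wordIndex b i + 1) / b ^ (start b (wordIndex b i + 1) - 1 - i) % b

theorem wordIndex_start_add {b n j : ℕ} (hj : j ≤ Nat.log b (n + 1)) :
    wordIndex b (start b n + j) = n := by
  refine (Nat.find_eq_iff _).2 ⟨by rw [start_succ]; omega, fun m hm => ?_⟩
  have := start_mono b (show m + 1 ≤ n by omega)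
  omega

theorem digit_start_add {b n j : ℕ} (hj : j ≤ Nat.log b (n + 1)) :
    champernowneDigit b (start b n + j) = (n + 1) / b ^ (Nat.log b (n + 1) - j) % b := by
  rw [champernowneDigit, wordIndex_start_add hj, start_succ]
  congr 3
  omega

/-- The digits are those of `1, 2, 3, …`, most significant first. -/
theorem digits_flatten {b : ℕ} (hb : 1 < b) (n : ℕ) :
    (List.range (start b n)).map (champernowneDigit b) =
      ((List.range n).map fun m => (Nat.digits b (m + 1)).reverse).flatten := by
  induction n with
  | zero => simp [start]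
  | succ n ih =>
    rw [List.range_succ, List.map_append, List.flatten_append, ← ih, start_succ, List.range_add,
      List.map_append, List.map_singleton, List.flatten_singleton]
    congr 1
    have hlen : (Nat.digits b (n + 1)).length = Nat.log b (n + 1) + 1 :=
      Nat.length_digits b (n + 1) hb n.succ_ne_zero
    refine List.ext_getElem ?_ fun j h1 h2 => ?_
    · simp [hlen]
    · simp only [List.length_map, List.length_range] at h1
      rw [List.getElem_map, List.getElem_map, List.getElem_range,
        digit_start_add (by omega), List.getElem_reverse,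
        ← Nat.getD_digits (n + 1) (Nat.log b (n + 1) - j) hb,
        ← List.getElem_eq_getD (h := by omega) 0]
      congr 1
      omega

/-- The value of a block. -/
def blockValue (b : ℕ) : (k : ℕ) → (ℕ → ℕ) → ℕ
  | 0, _ => 0
  | k + 1, f => blockValue b k f * b + f k

theorem blockValue_lt {b k : ℕ} {f : ℕ → ℕ} (hf : ∀ j < k, f j < b) :
    blockValue b k f < b ^ k := by
  induction k with
  | zero => simp [blockValue]
  | succ k ih =>
    have h1 := ih fun j hj => hf j (by omega)
    have h2 := hf k (by omega)
    rw [blockValue, pow_succ]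
    calc blockValue b k f * b + f k < blockValue b k f * b + b := by omega
      _ = (blockValue b k f + 1) * b := by ring
      _ ≤ b ^ k * b := Nat.mul_le_mul_right _ h1

theorem blockValue_eq_iff {b k : ℕ} {f g : ℕ → ℕ} (hf : ∀ j < k, f j < b)
    (hg : ∀ j < k, g j < b) : blockValue b k f = blockValue b k g ↔ ∀ j < k, f j = g j := by
  induction k with
  | zero => simp [blockValue]
  | succ k ih =>
    have ih' := ih (fun j hj => hf j (by omega)) (fun j hj => hg j (by omega))
    rw [blockValue, blockValue]
    constructor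
    · intro h j hj
      have hk : f k = g k := by
        have := congrArg (· % b) h
        simpa [Nat.add_mod, Nat.mod_eq_of_lt (hf k (by omega)),
          Nat.mod_eq_of_lt (hg k (by omega))] using this
      rw [hk, Nat.add_right_cancel_iff] at h
      have hb : 0 < b := (hf k (by omega)).pos
      rcases (show j < k ∨ j = k by omega) with hjk | rfl
      · exact ih'.1 (Nat.eq_of_mul_eq_mul_right hb h) j hjk
      · exact hk
    · intro h
      rw [h k (by omega), ih'.2 fun j hj => h j (by omega)]

/-- The value of the block of length `k` at position `i`. -/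
def window (b i k : ℕ) : ℕ := blockValue b k fun j => champernowneDigit b (i + j)

theorem digit_lt {b : ℕ} (hb : 0 < b) (i : ℕ) : champernowneDigit b i < b := Nat.mod_lt _ hb

theorem window_lt {b : ℕ} (hb : 0 < b) (i k : ℕ) : window b i k < b ^ k :=
  blockValue_lt fun _ _ => digit_lt hb _

theorem window_start_add {b n : ℕ} : ∀ (k j : ℕ), j + k ≤ Nat.log b (n + 1) + 1 →
    window b (start b n + j) k = (n + 1) / b ^ (Nat.log b (n + 1) + 1 - k - j) % b ^ k := by
  intro k
  induction k with
  | zero => intro j _; simp [window, blockValue, Nat.mod_one]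
  | succ k ih =>
    intro j hj
    have h := ih j (by omega)
    rw [window] at h
    rw [window, blockValue, h, add_assoc, digit_start_add (by omega : j + k ≤ _)]
    obtain ⟨t, ht⟩ : ∃ t, t = Nat.log b (n + 1) + 1 - (k + 1) - j := ⟨_, rfl⟩
    rw [← ht, show Nat.log b (n + 1) + 1 - k - j = t + 1 by omega,
      show Nat.log b (n + 1) - (j + k) = t by omega, pow_succ b t, pow_succ' b k, Nat.mod_mul,
      ← Nat.div_div_eq_div_mul]
    ring

/-- The block `W` of length `k` begins at distance `t + k` from the end of `m`. -/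
def MeetsAt (b k W t m : ℕ) : Prop := b ^ (t + k - 1) ≤ m ∧ m / b ^ t % b ^ k = W

instance (b k W t m : ℕ) : Decidable (MeetsAt b k W t m) := inferInstanceAs (Decidable (_ ∧ _))

theorem count_word {b k W n L : ℕ} (hb : 1 < b) (hk : 0 < k) (hL : Nat.log b (n + 1) ≤ L) :
    ((Finset.range (L + 1)).filter fun t => MeetsAt b k W t (n + 1)).card ≤
        Nat.count (fun j => window b (start b n + j) k = W) (Nat.log b (n + 1) + 1) ∧
      Nat.count (fun j => window b (start b n + j) k = W) (Nat.log b (n + 1) + 1) ≤
        ((Finset.range (L + 1)).filter fun t => MeetsAt b k W t (n + 1)).card + k := by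
  obtain ⟨l, hl⟩ : ∃ l, l = Nat.log b (n + 1) + 1 := ⟨_, rfl⟩
  rw [← hl, Nat.count_eq_card_filter_range]
  set T := (Finset.range (L + 1)).filter fun t => MeetsAt b k W t (n + 1)
  set J := (Finset.range l).filter fun j => window b (start b n + j) k = W
  have hbd : ∀ t, b ^ (t + k - 1) ≤ n + 1 ↔ t + k ≤ l := fun t => by
    rw [← Nat.le_log_iff_pow_le hb (by omega : n + 1 ≠ 0)]
    omega
  have hbij : T.card = (J.filter fun j => j + k ≤ l).card := by
    refine Finset.card_nbij' (fun t => l - k - t) (fun j => l - k - j) ?_ ?_ ?_ ?_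
    · intro t ht
      simp only [T, Finset.mem_coe, Finset.mem_filter, Finset.mem_range, MeetsAt, hbd] at ht
      simp only [J, Finset.mem_coe, Finset.mem_filter, Finset.mem_range]
      refine ⟨⟨by omega, ?_⟩, by omega⟩
      rw [window_start_add k _ (by omega), ← hl, show l - k - (l - k - t) = t by omega, ht.2.2]
    · intro j hj
      simp only [J, Finset.mem_coe, Finset.mem_filter, Finset.mem_range] at hj
      simp only [T, Finset.mem_coe, Finset.mem_filter, Finset.mem_range, MeetsAt, hbd]
      refine ⟨by omega, by omega, ?_⟩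
      rw [← hj.1.2, window_start_add k j (by omega), ← hl]
    · intro t ht
      simp only [T, Finset.mem_coe, Finset.mem_filter, MeetsAt, hbd] at ht
      dsimp only
      omega
    · intro j hj
      simp only [Finset.mem_coe, Finset.mem_filter] at hj
      dsimp only
      omega
  have hrest : (J.filter fun j => ¬j + k ≤ l).card ≤ k := by
    calc (J.filter fun j => ¬j + k ≤ l).card ≤ (Finset.Ico (l - k) l).card :=
          Finset.card_le_card fun j hj => by
            simp only [J, Finset.mem_filter, Finset.mem_range] at hj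
            simp only [Finset.mem_Ico]
            omega
      _ ≤ k := by rw [Nat.card_Ico]; omega
  have := Finset.card_filter_add_card_filter_not (s := J) fun j => j + k ≤ l
  omega

theorem count_period {M K W : ℕ} (hM : 0 < M) (hW : W < K) (q : ℕ) :
    Nat.count (fun x => x / M % K = W) (M * K * q) = q * M := by
  induction q with
  | zero => simp
  | succ q ih =>
    rw [mul_add, mul_one, Nat.count_add, ih, add_mul, one_mul, add_right_inj,
      Nat.count_eq_card_filter_range]
    rw [show (Finset.range (M * K)).filter (fun x => (M * K * q + x) / M % K = W) =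
      Finset.Ico (W * M) ((W + 1) * M) by
        ext x
        simp only [Finset.mem_filter, Finset.mem_range, Finset.mem_Ico]
        rw [mul_assoc M K q, Nat.mul_add_div hM, Nat.mul_add_mod, Nat.div_lt_iff_lt_mul hM |>.symm,
          ← Nat.le_div_iff_mul_le hM]
        constructor
        · rintro ⟨hx, hm⟩
          rw [Nat.mod_eq_of_lt ((Nat.div_lt_iff_lt_mul hM).2 (by rwa [mul_comm]))] at hm
          omega
        · rintro ⟨h1, h2⟩
          have : x / M = W := by omega
          refine ⟨?_, by rw [this, Nat.mod_eq_of_lt hW]⟩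
          rw [mul_comm M K]
          exact (Nat.div_lt_iff_lt_mul hM).1 (by omega),
      Nat.card_Ico, add_mul, one_mul]
    omega

/-- The meetings at one distance. -/
theorem count_meetsAt {b k W : ℕ} (hb : 1 < b) (hW : W < b ^ k) (n t : ℕ) :
    |((b : ℤ) ^ k) * (Nat.count (fun m => MeetsAt b k W t (m + 1)) n : ℕ) - n| ≤
      3 * ((b : ℤ) ^ k) ^ 2 * (b : ℤ) ^ t := by
  obtain ⟨M, hM⟩ : ∃ M, M = b ^ t := ⟨_, rfl⟩
  obtain ⟨K, hK⟩ : ∃ K, K = b ^ k := ⟨_, rfl⟩
  have hM0 : 0 < M := hM ▸ Nat.pow_pos (by omega)
  have hK0 : 0 < K := hK ▸ Nat.pow_pos (by omega)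
  set A := Nat.count (fun m => MeetsAt b k W t (m + 1)) n
  have e1 : Nat.count (MeetsAt b k W t) (n + 1) = A := by
    rw [Nat.count_add' (MeetsAt b k W t) n 1]
    have : ¬MeetsAt b k W t 0 := fun h => by
      have := Nat.pow_pos (a := b) (n := t + k - 1) (by omega)
      exact absurd h.1 (by omega)
    simp [A, Nat.count_succ, this]
  set G := Nat.count (fun x => x / M % K = W) (n + 1)
  have e2 : A ≤ G := e1 ▸ Nat.count_mono_left fun x _ h => by
    rw [hM, hK]
    exact h.2
  have e3 : G ≤ A + M * K := by
    rw [← e1]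
    simp only [G, Nat.count_eq_card_filter_range]
    refine (Finset.card_le_card (t := (Finset.range (n + 1)).filter (MeetsAt b k W t) ∪
      Finset.range (M * K)) fun x hx => ?_).trans ((Finset.card_union_le _ _).trans (by simp))
    simp only [Finset.mem_union, Finset.mem_filter, Finset.mem_range] at hx ⊢
    by_cases h : b ^ (t + k - 1) ≤ x
    · exact Or.inl ⟨hx.1, h, by rw [← hM, ← hK]; exact hx.2⟩
    · refine Or.inr (lt_of_lt_of_le (not_le.1 h) ?_)
      rw [hM, hK, ← pow_add]
      exact Nat.pow_le_pow_right (by omega) (by omega)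
  obtain ⟨q, hq⟩ : ∃ q, q = (n + 1) / (M * K) := ⟨_, rfl⟩
  have hlo : M * K * q ≤ n + 1 := by rw [hq]; exact Nat.mul_div_le _ _
  have hhi : n + 1 ≤ M * K * (q + 1) := by
    rw [hq]; exact (Nat.lt_mul_div_succ _ (Nat.mul_pos hM0 hK0)).le
  have hWK : W < K := hK ▸ hW
  have g1 : q * M ≤ G := count_period hM0 hWK q ▸ Nat.count_monotone _ hlo
  have g2 : G ≤ (q + 1) * M := count_period hM0 hWK (q + 1) ▸ Nat.count_monotone _ hhi
  have hKc : ((b : ℤ) ^ k) = (K : ℤ) := by rw [hK]; push_cast; ring
  have hMc : ((b : ℤ) ^ t) = (M : ℤ) := by rw [hM]; push_cast; ring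
  rw [hKc, hMc, abs_le]
  have hK1 : (1 : ℤ) ≤ K := by exact_mod_cast hK0
  have hM1 : (1 : ℤ) ≤ M := by exact_mod_cast hM0
  have hMK : (1 : ℤ) ≤ (K : ℤ) * M := one_le_mul_of_one_le_of_one_le hK1 hM1
  have hsq : (K : ℤ) * M ≤ (K : ℤ) ^ 2 * M := by
    rw [sq, mul_assoc]
    exact le_mul_of_one_le_left (by linarith) hK1
  zify at e2 e3 hlo hhi g1 g2
  constructor <;> nlinarith

theorem sum_pow_le {b : ℕ} (hb : 2 ≤ b) (L : ℕ) :
    ∑ t ∈ Finset.range (L + 1), (b : ℤ) ^ t ≤ 2 * (b : ℤ) ^ L := by
  have hb' : (2 : ℤ) ≤ b := by exact_mod_cast hb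
  induction L with
  | zero => simp
  | succ L ih =>
    rw [Finset.sum_range_succ _ (L + 1), pow_succ]
    nlinarith [pow_nonneg (by linarith : (0 : ℤ) ≤ b) L]

theorem abs_count_words {b k W n : ℕ} (hb : 1 < b) (hk : 0 < k) (hW : W < b ^ k) (hn : 0 < n) :
    |((b : ℤ) ^ k) * (∑ m ∈ Finset.range n,
        ((Finset.range (Nat.log b n + 1)).filter fun t => MeetsAt b k W t (m + 1)).card : ℕ) -
        n * ((Nat.log b n : ℤ) + 1)| ≤ (6 * ((b : ℤ) ^ k) ^ 2 + k) * n := by
  set L := Nat.log b n
  have hbL : b ^ L ≤ n := Nat.pow_log_le_self b hn.ne'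
  have hswap : ∑ m ∈ Finset.range n,
      ((Finset.range (L + 1)).filter fun t => MeetsAt b k W t (m + 1)).card =
      ∑ t ∈ Finset.range (L + 1), Nat.count (fun m => MeetsAt b k W t (m + 1)) n := by
    simp only [Nat.count_eq_card_filter_range, Finset.card_filter]
    exact Finset.sum_comm
  rw [hswap, Nat.cast_sum, Finset.mul_sum,
    show (n : ℤ) * ((L : ℤ) + 1) = ∑ _t ∈ Finset.range (L + 1), (n : ℤ) by simp; ring,
    ← Finset.sum_sub_distrib]
  refine (Finset.abs_sum_le_sum_abs _ _).trans ?_
  refine (Finset.sum_le_sum fun t _ => count_meetsAt hb hW n t).trans ?_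
  rw [← Finset.mul_sum]
  have h1 := sum_pow_le hb L
  have h2 : ((b : ℤ) ^ L) ≤ n := by exact_mod_cast hbL
  have h3 : (0 : ℤ) ≤ 3 * ((b : ℤ) ^ k) ^ 2 := by positivity
  have h4 : (0 : ℤ) ≤ (k : ℤ) * n := by positivity
  nlinarith

theorem abs_start {b n : ℕ} (hb : 1 < b) (hn : 0 < n) :
    |(start b n : ℤ) - n * ((Nat.log b n : ℤ) + 1)| ≤ 2 * n := by
  set L := Nat.log b n
  have hle : start b n ≤ n * (L + 1) := by
    refine (Finset.sum_le_card_nsmul _ _ (L + 1) fun m hm => ?_).trans_eq (by simp)
    have := Nat.log_mono_right (b := b) (show m + 1 ≤ n by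
      have := Finset.mem_range.1 hm; omega)
    omega
  have hge : ∀ J, n * J ≤ start b n + ∑ t ∈ Finset.range J, b ^ t := fun J => by
    have h : ∀ m, ((Finset.range J).filter fun t => b ^ t ≤ m + 1).card ≤
        Nat.log b (m + 1) + 1 := fun m =>
      (Finset.card_le_card fun t ht => by
        rw [Finset.mem_filter] at ht
        exact Finset.mem_range.2 (Nat.lt_succ_of_le
          ((Nat.le_log_iff_pow_le hb m.succ_ne_zero).2 ht.2))).trans_eq (Finset.card_range _)
    have h2 : ∀ t, n ≤ ((Finset.range n).filter fun m => b ^ t ≤ m + 1).card + b ^ t := fun t => by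
      have h3 := Finset.card_filter_add_card_filter_not (s := Finset.range n)
        fun m => b ^ t ≤ m + 1
      rw [Finset.card_range] at h3
      have h4 : ((Finset.range n).filter fun m => ¬b ^ t ≤ m + 1).card ≤ b ^ t :=
        (Finset.card_le_card fun m hm => by
          rw [Finset.mem_filter] at hm
          exact Finset.mem_range.2 (by omega)).trans_eq (Finset.card_range _)
      omega
    calc n * J = ∑ _t ∈ Finset.range J, n := by simp [mul_comm]
      _ ≤ ∑ t ∈ Finset.range J,
          (((Finset.range n).filter fun m => b ^ t ≤ m + 1).card + b ^ t) :=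
        Finset.sum_le_sum fun t _ => h2 t
      _ = ∑ m ∈ Finset.range n, ((Finset.range J).filter fun t => b ^ t ≤ m + 1).card +
          ∑ t ∈ Finset.range J, b ^ t := by
        rw [Finset.sum_add_distrib]
        simp only [Finset.card_filter]
        rw [Finset.sum_comm]
      _ ≤ start b n + ∑ t ∈ Finset.range J, b ^ t :=
        Nat.add_le_add_right (Finset.sum_le_sum fun m _ => h m) _
  have h1 := sum_pow_le hb L
  have h2 : ((b : ℤ) ^ L) ≤ n := by exact_mod_cast Nat.pow_log_le_self b hn.ne'
  have h3 := hge (L + 1)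
  zify at hle h3
  rw [abs_le]
  constructor <;> nlinarith

/-- The occurrences of the block `W` before position `N`. -/
def occurrences (b k W N : ℕ) : ℕ := Nat.count (fun i => window b i k = W) N

/-- **The count at the end of a word.** -/
theorem abs_occurrences_start {b k W n : ℕ} (hb : 1 < b) (hk : 0 < k) (hW : W < b ^ k)
    (hn : 0 < n) :
    |((b : ℤ) ^ k) * (occurrences b k W (start b n) : ℕ) - (start b n : ℕ)| ≤
      (6 * ((b : ℤ) ^ k) ^ 2 + k + k * (b : ℤ) ^ k + 2) * n := by
  set L := Nat.log b n
  obtain ⟨g, hg⟩ : ∃ g : ℕ → ℕ,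
      g = fun m => ((Finset.range (L + 1)).filter fun t => MeetsAt b k W t (m + 1)).card := ⟨_, rfl⟩
  have hind : ∀ j ≤ n, ∑ m ∈ Finset.range j, g m ≤ occurrences b k W (start b j) ∧
      occurrences b k W (start b j) ≤ ∑ m ∈ Finset.range j, g m + k * j := by
    intro j
    induction j with
    | zero => intro _; simp [occurrences, start]
    | succ j ih =>
      intro hj
      obtain ⟨i1, i2⟩ := ih (by omega)
      obtain ⟨c1, c2⟩ := count_word (W := W) (n := j) (L := L) hb hk
        (Nat.log_mono_right (by omega))
      rw [occurrences] at i1 i2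
      rw [occurrences, start_succ, Nat.count_add, Finset.sum_range_succ, hg]
      rw [hg] at i1 i2
      simp only at c1 c2 i1 i2 ⊢
      constructor <;> nlinarith
  obtain ⟨a1, a2⟩ := hind n le_rfl
  have e1 := abs_count_words (W := W) hb hk hW hn
  have e2 := abs_start hb hn
  rw [hg] at a1 a2
  simp only at a1 a2
  rw [abs_le] at e1 e2 ⊢
  have hK : (0 : ℤ) ≤ (b : ℤ) ^ k := by positivity
  zify at a1 a2
  push_cast at e1 e2 a1 a2 ⊢
  have := mul_le_mul_of_nonneg_left a1 hK
  have := mul_le_mul_of_nonneg_left a2 hK
  constructor <;> nlinarith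

/-- **The count at any position.** -/
theorem abs_occurrences {b k W N : ℕ} (hb : 1 < b) (hk : 0 < k) (hW : W < b ^ k) {n : ℕ}
    (hn : 0 < n) (h1 : start b n ≤ N) (h2 : N < start b (n + 1)) :
    |((b : ℤ) ^ k) * (occurrences b k W N : ℕ) - N| ≤
      (6 * ((b : ℤ) ^ k) ^ 2 + k + k * (b : ℤ) ^ k + 2 + 2 * ((b : ℤ) ^ k + 1)) * n := by
  obtain ⟨d, rfl⟩ := Nat.exists_eq_add_of_le h1
  have hd : d ≤ 2 * n := by
    rw [start_succ] at h2
    have := Nat.log_le_self b (n + 1)
    omega
  have e := abs_occurrences_start (W := W) hb hk hW hn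
  have hsplit : occurrences b k W (start b n + d) =
      occurrences b k W (start b n) + Nat.count (fun j => window b (start b n + j) k = W) d :=
    Nat.count_add _ _ _
  have hc : Nat.count (fun j => window b (start b n + j) k = W) d ≤ d := by
    rw [Nat.count_eq_card_filter_range]
    exact (Finset.card_filter_le _ _).trans_eq (Finset.card_range d)
  have hK : (0 : ℤ) ≤ (b : ℤ) ^ k := by positivity
  rw [abs_le] at e ⊢
  rw [hsplit]
  generalize Nat.count (fun j => window b (start b n + j) k = W) d = c at hc ⊢
  zify at hd hc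
  push_cast at e ⊢
  have := mul_le_mul_of_nonneg_left hc hK
  have := mul_le_mul_of_nonneg_left hd hK
  have := mul_nonneg hK (Int.natCast_nonneg c)
  constructor <;> nlinarith

end FA.NormalNumbers
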