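import Fermat.Agent.PointwiseErgodic.Birkhoff
import Mathlib.Dynamics.Ergodic.AddCircle
import Mathlib.MeasureTheory.Integral.IntervalIntegral.Periodic
import Mathlib.MeasureTheory.Function.Floor

/-!
# Borel's theorem on normal numbers

Multiplication by `b` on the circle is ergodic, so almost every point visits each interval
`[W / b ^ k, (W + 1) / b ^ k)` with frequency `b ^ (-k)`.
-/

set_option autoImplicit false

noncomputable section

open MeasureTheory Filter Topology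

namespace FA.NormalNumbers

/-- The points of the circle whose first `k` digits in base `b` form `W`. -/
def cylinder (b k W : ℕ) : Set UnitAddCircle :=
  {y | ⌊(b : ℝ) ^ k * (AddCircle.measurableEquivIco (1 : ℝ) 0 y : ℝ)⌋ = (W : ℤ)}

theorem measurableSet_cylinder (b k W : ℕ) : MeasurableSet (cylinder b k W) := by
  have hm : Measurable fun y : UnitAddCircle =>
      (b : ℝ) ^ k * (AddCircle.measurableEquivIco (1 : ℝ) 0 y : ℝ) :=
    (measurable_subtype_coe.comp (AddCircle.measurableEquivIco (1 : ℝ) 0).measurable).const_mul _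
  exact (Int.measurable_floor.comp hm) (measurableSet_singleton _)

theorem mem_cylinder (b k W : ℕ) (x : ℝ) :
    (x : UnitAddCircle) ∈ cylinder b k W ↔ ⌊(b : ℝ) ^ k * Int.fract x⌋ = (W : ℤ) := by
  have : (AddCircle.measurableEquivIco (1 : ℝ) 0 (x : UnitAddCircle) : ℝ) = Int.fract x :=
    (AddCircle.coe_equivIco_mk_apply (p := (1 : ℝ)) x).trans (by simp)
  simp only [cylinder, Set.mem_ofPred_eq, this]

theorem measureReal_cylinder {b k W : ℕ} (hb : 1 < b) (hW : W < b ^ k) :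
    volume.real (cylinder b k W) = 1 / (b : ℝ) ^ k := by
  have hK : (0 : ℝ) < (b : ℝ) ^ k := by positivity
  have hWK : (W : ℝ) + 1 ≤ (b : ℝ) ^ k := by exact_mod_cast hW
  rw [measureReal_def, ← (UnitAddCircle.measurePreserving_mk 0).measure_preimage
    (measurableSet_cylinder b k W).nullMeasurableSet]
  rw [Measure.restrict_apply' measurableSet_Ioc, zero_add]
  have hae : ((↑) ⁻¹' cylinder b k W ∩ Set.Ioc (0 : ℝ) 1 : Set ℝ) =ᵐ[volume]
      Set.Ico ((W : ℝ) / (b : ℝ) ^ k) (((W : ℝ) + 1) / (b : ℝ) ^ k) := by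
    have h1 : ∀ᵐ x : ℝ, x ≠ 1 := by simp [ae_iff]
    have h0 : ∀ᵐ x : ℝ, x ≠ 0 := by simp [ae_iff]
    filter_upwards [h1, h0] with x hx1 hx0
    refine propext ?_
    change (x : UnitAddCircle) ∈ cylinder b k W ∧ x ∈ Set.Ioc (0 : ℝ) 1 ↔ x ∈ Set.Ico _ _
    rw [mem_cylinder, Set.mem_Ico, div_le_iff₀ hK, lt_div_iff₀ hK, Set.mem_Ioc]
    constructor
    · rintro ⟨h, hx, hx'⟩
      rw [Int.fract_eq_self.2 ⟨hx.le, hx'.lt_of_ne hx1⟩, Int.floor_eq_iff] at h
      push_cast at h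
      constructor <;> linarith [h.1, h.2]
    · rintro ⟨h, h'⟩
      have hx : 0 ≤ x := nonneg_of_mul_nonneg_left ((Nat.cast_nonneg W).trans h) hK
      have hx' : x < 1 := by nlinarith
      refine ⟨?_, hx.lt_of_ne (Ne.symm hx0), hx'.le⟩
      rw [Int.fract_eq_self.2 ⟨hx, hx'⟩, Int.floor_eq_iff]
      push_cast
      constructor <;> linarith
  rw [measure_congr hae, Real.volume_Ico, ← sub_div, add_sub_cancel_left,
    ENNReal.toReal_ofReal (by positivity)]

theorem ae_real_of_ae_circle {P : UnitAddCircle → Prop} (h : ∀ᵐ y : UnitAddCircle, P y) :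
    ∀ᵐ x : ℝ, P x := by
  have hn : ∀ n : ℤ, ∀ᵐ x : ℝ ∂(volume.restrict (Set.Ioc (n : ℝ) (n + 1))), P x := fun n =>
    (UnitAddCircle.measurePreserving_mk (n : ℝ)).quasiMeasurePreserving.ae h
  have := (ae_restrict_iUnion_iff (fun n : ℤ => Set.Ioc (n : ℝ) (n + 1)) fun x : ℝ => P x).2 hn
  rwa [show (⋃ n : ℤ, Set.Ioc (n : ℝ) (n + 1)) = Set.univ from ?_, Measure.restrict_univ] at this
  ext x
  simp only [Set.mem_iUnion, Set.mem_Ioc, Set.mem_univ, iff_true]
  exact ⟨⌈x⌉ - 1, by push_cast; linarith [Int.ceil_lt_add_one x], by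
    push_cast; linarith [Int.le_ceil x]⟩

/-- **Borel's theorem**, one base and one block. -/
theorem ae_frequency {b : ℕ} (hb : 1 < b) {k W : ℕ} (hW : W < b ^ k) :
    ∀ᵐ x : ℝ, Tendsto (fun N : ℕ => (((Finset.range N).filter fun i =>
      ⌊(b : ℝ) ^ (i + k) * x⌋ % ((b : ℤ) ^ k) = (W : ℤ)).card : ℝ) / N) atTop
        (𝓝 (1 / (b : ℝ) ^ k)) := by
  have : IsProbabilityMeasure (volume : Measure UnitAddCircle) := ⟨UnitAddCircle.measure_univ⟩
  have hS := measurableSet_cylinder b k W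
  have h := FA.PointwiseErgodic.tendsto_average_ergodic (AddCircle.ergodic_nsmul (T := (1 : ℝ)) hb)
    ((integrable_const (1 : ℝ)).indicator hS)
  rw [integral_indicator_const _ hS, smul_eq_mul, mul_one, measureReal_cylinder hb hW] at h
  filter_upwards [ae_real_of_ae_circle h] with x hx
  classical
  refine hx.congr fun N => ?_
  rw [birkhoffAverage, smul_eq_mul, birkhoffSum, inv_mul_eq_div, Finset.card_filter, Nat.cast_sum]
  congr 1
  refine Finset.sum_congr rfl fun i _ => ?_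
  have hit : (fun y : UnitAddCircle => b • y)^[i] (x : UnitAddCircle) =
      (((b : ℝ) ^ i * x : ℝ) : UnitAddCircle) := by
    simp only [smul_iterate]
    rw [← AddCircle.coe_nsmul, nsmul_eq_mul]
    push_cast
    rfl
  have hfloor : ⌊(b : ℝ) ^ k * Int.fract ((b : ℝ) ^ i * x)⌋ =
      ⌊(b : ℝ) ^ (i + k) * x⌋ % ((b : ℤ) ^ k) := by
    have hK : (0 : ℤ) < (b : ℤ) ^ k := by positivity
    have e : ⌊(b : ℝ) ^ k * Int.fract ((b : ℝ) ^ i * x)⌋ =
        ⌊(b : ℝ) ^ (i + k) * x⌋ - (b : ℤ) ^ k * ⌊(b : ℝ) ^ i * x⌋ := by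
      rw [Int.fract, mul_sub, show (b : ℝ) ^ k * (⌊(b : ℝ) ^ i * x⌋ : ℝ) =
        (((b : ℤ) ^ k * ⌊(b : ℝ) ^ i * x⌋ : ℤ) : ℝ) by push_cast; ring, Int.floor_sub_intCast,
        pow_add]
      congr 2
      ring
    have hlo : 0 ≤ ⌊(b : ℝ) ^ k * Int.fract ((b : ℝ) ^ i * x)⌋ :=
      Int.floor_nonneg.2 (mul_nonneg (by positivity) (Int.fract_nonneg _))
    have hhi : ⌊(b : ℝ) ^ k * Int.fract ((b : ℝ) ^ i * x)⌋ < (b : ℤ) ^ k :=
      Int.floor_lt.2 (by
        push_cast
        exact mul_lt_of_lt_one_right (by positivity) (Int.fract_lt_one _))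
    rw [← Int.emod_eq_of_lt hlo hhi, e, Int.sub_mul_emod_self_left]
  rw [hit, Set.indicator_apply]
  simp only [mem_cylinder, hfloor]
  split_ifs <;> simp

end FA.NormalNumbers

end
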