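import Fermat.Agent.NormalNumbers.Digits
import Mathlib.Analysis.SpecificLimits.Basic
import Mathlib.NumberTheory.Real.Irrational
import Mathlib.Algebra.Order.Archimedean.Real.Basic

/-!
# Champernowne's number is normal

The count of a block before position `N` is `N / b ^ k + o (N)`, as the number of words there is
`o (N)`. The tails of the digit series are the values `fract (b ^ i x)`, whose first `k` digits are
the windows, so they are equidistributed.
-/

set_option autoImplicit false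

noncomputable section

open Filter Topology

namespace FA.NormalNumbers

variable {b : ℕ}

/-- **Normality.** -/
theorem tendsto_occurrences (hb : 1 < b) {k W : ℕ} (hk : 0 < k) (hW : W < b ^ k) :
    Tendsto (fun N : ℕ => (occurrences b k W N : ℝ) / N) atTop (𝓝 (1 / (b : ℝ) ^ k)) := by
  obtain ⟨C, hC⟩ : ∃ C : ℤ, C = 6 * ((b : ℤ) ^ k) ^ 2 + k + k * (b : ℤ) ^ k + 2 +
      2 * ((b : ℤ) ^ k + 1) := ⟨_, rfl⟩
  have hC0 : (0 : ℝ) ≤ (C : ℝ) := by rw [hC]; push_cast; positivity
  have hb1 : (1 : ℝ) ≤ b := by exact_mod_cast hb.le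
  have hK1 : (1 : ℝ) ≤ (b : ℝ) ^ k := one_le_pow₀ hb1
  refine Metric.tendsto_atTop.2 fun ε hε => ?_
  obtain ⟨L₀, hL₀⟩ := exists_nat_gt ((C : ℝ) / ε + 2)
  refine ⟨start b (b ^ L₀) + 1, fun N hN => ?_⟩
  set n := wordIndex b N
  have hlt : N < start b (n + 1) := Nat.find_spec (exists_lt_start b N)
  have hbn : b ^ L₀ ≤ n := by
    by_contra! h
    have := start_mono b (show n + 1 ≤ b ^ L₀ by omega)
    omega
  have hn : 0 < n := lt_of_lt_of_le (Nat.pow_pos (by omega)) hbn
  have hle : start b n ≤ N := by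
    by_contra! h
    exact Nat.find_min (exists_lt_start b N) (show n - 1 < n by omega)
      (by rwa [Nat.sub_add_cancel hn])
  have hL : L₀ ≤ Nat.log b n := (Nat.le_log_iff_pow_le hb hn.ne').2 hbn
  have e := abs_occurrences (W := W) hb hk hW hn hle hlt
  rw [← hC] at e
  have e' : |(b : ℝ) ^ k * occurrences b k W N - N| ≤ (C : ℝ) * n := by exact_mod_cast e
  have e2 : |(start b n : ℝ) - n * ((Nat.log b n : ℝ) + 1)| ≤ 2 * n := by
    exact_mod_cast abs_start hb hn
  rw [abs_le] at e2
  have hn1 : (1 : ℝ) ≤ n := by exact_mod_cast hn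
  have hL' : (L₀ : ℝ) ≤ Nat.log b n := by exact_mod_cast hL
  have hNn : (n : ℝ) * ((L₀ : ℝ) - 1) ≤ N := by
    have hle' : (start b n : ℝ) ≤ N := by exact_mod_cast hle
    nlinarith
  have hCε : (C : ℝ) < ε * ((L₀ : ℝ) - 1) := by
    have h3 : (C : ℝ) / ε < (L₀ : ℝ) - 2 := by linarith
    rw [div_lt_iff₀ hε] at h3
    nlinarith
  have hN0 : (0 : ℝ) < N := Nat.cast_pos.2 (by omega)
  rw [Real.dist_eq, div_sub_div _ _ hN0.ne' (by linarith), abs_div,
    abs_of_pos (mul_pos hN0 (by linarith : (0 : ℝ) < (b : ℝ) ^ k)),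
    div_lt_iff₀ (by nlinarith), mul_one]
  calc |(occurrences b k W N : ℝ) * (b : ℝ) ^ k - N| ≤ (C : ℝ) * n := by rwa [mul_comm]
    _ < ε * ((L₀ : ℝ) - 1) * n := mul_lt_mul_of_pos_right hCε (by linarith)
    _ ≤ ε * ((N : ℝ) * 1) := by rw [mul_one, mul_assoc, mul_comm ((L₀ : ℝ) - 1)]; gcongr
    _ ≤ ε * ((N : ℝ) * (b : ℝ) ^ k) := by gcongr

/-- The tail of the digit series. -/
def tail (b i : ℕ) : ℝ := ∑' j : ℕ, (champernowneDigit b (i + j) : ℝ) / (b : ℝ) ^ (j + 1)

/-- **Champernowne's number** in base `b`. -/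
def champernowne (b : ℕ) : ℝ := tail b 0

theorem hasSum_max (hb : 1 < b) :
    HasSum (fun j : ℕ => ((b : ℝ) - 1) / (b : ℝ) ^ (j + 1)) 1 := by
  have hb' : (1 : ℝ) < b := by exact_mod_cast hb
  have hne : (b : ℝ) - 1 ≠ 0 := by linarith
  have h := (hasSum_geometric_of_lt_one (r := (b : ℝ)⁻¹) (by positivity)
    (inv_lt_one_of_one_lt₀ hb')).mul_left (((b : ℝ) - 1) / b)
  rw [show ((b : ℝ) - 1) / b * (1 - (b : ℝ)⁻¹)⁻¹ = 1 by field_simp] at h
  refine h.congr_fun fun j => ?_
  rw [pow_succ', inv_pow, ← div_div, div_eq_mul_inv _ ((b : ℝ) ^ j)]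

theorem digit_term_le (hb : 1 < b) (i j : ℕ) :
    (champernowneDigit b (i + j) : ℝ) / (b : ℝ) ^ (j + 1) ≤ ((b : ℝ) - 1) / (b : ℝ) ^ (j + 1) := by
  refine div_le_div_of_nonneg_right ?_ (by positivity)
  have h := digit_lt (show 0 < b by omega) (i + j)
  have : (champernowneDigit b (i + j) : ℝ) + 1 ≤ b := by exact_mod_cast h
  linarith

theorem summable_tail (hb : 1 < b) (i : ℕ) :
    Summable fun j : ℕ => (champernowneDigit b (i + j) : ℝ) / (b : ℝ) ^ (j + 1) :=
  (hasSum_max hb).summable.of_nonneg_of_le (fun j => by positivity) (digit_term_le hb i)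

theorem tail_nonneg (b i : ℕ) : 0 ≤ tail b i := tsum_nonneg fun j => by positivity

theorem exists_zero_digit (hb : 1 < b) (i : ℕ) : ∃ j, champernowneDigit b (i + j) = 0 := by
  obtain ⟨m, hm⟩ : ∃ m, b ^ (i + 1) = m + 1 :=
    ⟨b ^ (i + 1) - 1, by have := Nat.one_le_pow (i + 1) b (by omega); omega⟩
  have hi : i ≤ start b m + Nat.log b (m + 1) := by
    have := Nat.lt_pow_self (n := i + 1) hb
    have := le_start b m
    omega
  refine ⟨start b m + Nat.log b (m + 1) - i, ?_⟩
  rw [Nat.add_sub_cancel' hi, digit_start_add le_rfl, Nat.sub_self, pow_zero, Nat.div_one, ← hm,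
    pow_succ', Nat.mul_mod_right]

theorem tail_lt_one (hb : 1 < b) (i : ℕ) : tail b i < 1 := by
  obtain ⟨j, hj⟩ := exists_zero_digit hb i
  have hb' : (1 : ℝ) < b := by exact_mod_cast hb
  refine lt_of_lt_of_eq ?_ (hasSum_max hb).tsum_eq
  refine Summable.tsum_lt_tsum (i := j) (digit_term_le hb i) ?_ (summable_tail hb i)
    (hasSum_max hb).summable
  rw [hj, Nat.cast_zero, zero_div]
  exact div_pos (by linarith) (by positivity)

theorem tail_eq (hb : 1 < b) (i : ℕ) :
    (b : ℝ) * tail b i = champernowneDigit b i + tail b (i + 1) := by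
  have hb0 : (b : ℝ) ≠ 0 := by exact_mod_cast (by omega : b ≠ 0)
  rw [tail, tail, (summable_tail hb i).tsum_eq_zero_add, mul_add, ← tsum_mul_left]
  congr 1
  · simp [mul_div_cancel₀ _ hb0]
  · refine tsum_congr fun j => ?_
    rw [show i + (j + 1) = i + 1 + j by ring, pow_succ' (b : ℝ) (j + 1), mul_div_assoc']
    field_simp

theorem tail_window (hb : 1 < b) (i : ℕ) : ∀ k : ℕ,
    (b : ℝ) ^ k * tail b i = (window b i k : ℝ) + tail b (i + k) := by
  intro k
  induction k with
  | zero => simp [window, blockValue]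
  | succ k ih =>
    rw [window] at ih
    rw [window, blockValue, pow_succ', mul_assoc, ih, mul_add, tail_eq hb (i + k), ← add_assoc i k]
    push_cast
    ring

theorem fract_pow_mul (hb : 1 < b) (i : ℕ) :
    Int.fract ((b : ℝ) ^ i * champernowne b) = tail b i := by
  rw [champernowne, tail_window hb 0 i, zero_add, add_comm, Int.fract_add_natCast]
  exact Int.fract_eq_self.2 ⟨tail_nonneg b i, tail_lt_one hb i⟩

theorem tendsto_count_window_lt (hb : 1 < b) {k : ℕ} (hk : 0 < k) : ∀ W : ℕ, W ≤ b ^ k →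
    Tendsto (fun N : ℕ => ((Nat.count (fun i => window b i k < W) N : ℕ) : ℝ) / N) atTop
      (𝓝 ((W : ℝ) / (b : ℝ) ^ k)) := by
  intro W
  induction W with
  | zero => intro _; simp [Nat.count_eq_card_filter_range]
  | succ W ih =>
    intro hW
    have h := (ih (by omega)).add (tendsto_occurrences hb hk (W := W) (by omega))
    rw [Nat.cast_succ, add_div]
    refine h.congr fun N => ?_
    rw [← add_div, ← Nat.cast_add, occurrences]
    congr 2
    simp only [Nat.count_eq_card_filter_range]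
    rw [← Finset.card_union_of_disjoint (Finset.disjoint_filter.2 fun x _ h1 h2 => by omega),
      ← Finset.filter_or]
    exact congrArg Finset.card (Finset.filter_congr fun x _ => by omega)

theorem tendsto_count_lt (hb : 1 < b) {z : ℝ} (hz0 : 0 ≤ z) (hz1 : z ≤ 1) :
    Tendsto (fun N : ℕ => (((Finset.range N).filter fun i => tail b i < z).card : ℝ) / N) atTop
      (𝓝 z) := by
  have hb' : (1 : ℝ) < b := by exact_mod_cast hb
  refine Metric.tendsto_atTop.2 fun ε hε => ?_
  obtain ⟨k, hk⟩ := pow_unbounded_of_one_lt (3 / ε) hb'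
  obtain ⟨K, hK⟩ : ∃ K : ℝ, K = (b : ℝ) ^ (k + 1) := ⟨_, rfl⟩
  have hK0 : 0 < K := by rw [hK]; positivity
  have hkK : 3 / ε < K := hk.trans_le (hK ▸ pow_le_pow_right₀ hb'.le (by omega))
  have h3 : 1 / K < ε / 3 := by
    rw [div_lt_iff₀ hε] at hkK
    rw [div_lt_iff₀ hK0]
    linarith
  set W := ⌊z * K⌋₊
  have hfl : (W : ℝ) ≤ z * K := Nat.floor_le (by positivity)
  have hfl' : z * K < W + 1 := Nat.lt_floor_add_one _
  have hwin : ∀ i, (window b i (k + 1) : ℝ) ≤ K * tail b i ∧
      K * tail b i < window b i (k + 1) + 1 := fun i => by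
    rw [hK, tail_window hb]
    constructor <;> linarith [tail_nonneg b (i + (k + 1)), tail_lt_one hb (i + (k + 1))]
  have hWK : W ≤ b ^ (k + 1) := by
    have : (W : ℝ) ≤ (b : ℝ) ^ (k + 1) := by rw [← hK]; nlinarith
    exact_mod_cast this
  obtain ⟨N1, h1⟩ := Metric.tendsto_atTop.1 (tendsto_count_window_lt hb k.succ_pos W hWK)
    (ε / 3) (by linarith)
  have hlow : ∀ N, N1 ≤ N →
      z - ε < (((Finset.range N).filter fun i => tail b i < z).card : ℝ) / N := fun N hN => by
    have := h1 N hN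
    rw [Real.dist_eq, abs_lt, ← hK] at this
    have hsub : (Nat.count (fun i => window b i (k + 1) < W) N : ℝ) ≤
        ((Finset.range N).filter fun i => tail b i < z).card := by
      rw [Nat.count_eq_card_filter_range, Nat.cast_le]
      refine Finset.card_le_card (Finset.monotone_filter_right _ fun i _ hi => ?_)
      have hi' : (window b i (k + 1) : ℝ) + 1 ≤ W := by exact_mod_cast hi
      nlinarith [(hwin i).2]
    have := div_le_div_of_nonneg_right hsub (Nat.cast_nonneg (α := ℝ) N)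
    have : z < (W : ℝ) / K + 1 / K := by rw [← add_div, lt_div_iff₀ hK0]; exact hfl'
    linarith
  rcases (show W + 1 ≤ b ^ (k + 1) ∨ b ^ (k + 1) ≤ W by omega) with hlt | hge
  · obtain ⟨N2, h2⟩ := Metric.tendsto_atTop.1 (tendsto_count_window_lt hb k.succ_pos (W + 1) hlt)
      (ε / 3) (by linarith)
    refine ⟨max N1 N2, fun N hN => ?_⟩
    have := h2 N (le_of_max_le_right hN)
    rw [Real.dist_eq, abs_lt, ← hK, Nat.cast_succ, add_div] at this
    have hsub : (((Finset.range N).filter fun i => tail b i < z).card : ℝ) ≤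
        Nat.count (fun i => window b i (k + 1) < W + 1) N := by
      rw [Nat.count_eq_card_filter_range, Nat.cast_le]
      refine Finset.card_le_card (Finset.monotone_filter_right _ fun i _ hi => ?_)
      rw [Nat.lt_succ_iff]
      refine Nat.le_floor ?_
      nlinarith [(hwin i).1]
    have := div_le_div_of_nonneg_right hsub (Nat.cast_nonneg (α := ℝ) N)
    have : (W : ℝ) / K ≤ z := by rw [div_le_iff₀ hK0]; exact hfl
    rw [Real.dist_eq, abs_lt]
    constructor <;> linarith [hlow N (le_of_max_le_left hN)]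
  · have hz : 1 ≤ z := by
      have : (b : ℝ) ^ (k + 1) ≤ W := by exact_mod_cast hge
      rw [← hK] at this
      nlinarith
    refine ⟨N1, fun N hN => ?_⟩
    have hle : (((Finset.range N).filter fun i => tail b i < z).card : ℝ) ≤ N :=
      Nat.cast_le.2 ((Finset.card_filter_le _ _).trans_eq (Finset.card_range N))
    have := div_le_one_of_le₀ hle (Nat.cast_nonneg N)
    rw [Real.dist_eq, abs_lt]
    constructor <;> linarith [hlow N hN]

theorem equidistributed (hb : 1 < b) {u v : ℝ} (hu : 0 ≤ u) (huv : u ≤ v) (hv : v ≤ 1) :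
    Tendsto (fun N : ℕ => (((Finset.range N).filter fun i =>
      u ≤ tail b i ∧ tail b i < v).card : ℝ) / N) atTop (𝓝 (v - u)) := by
  refine ((tendsto_count_lt hb (hu.trans huv) hv).sub
    (tendsto_count_lt hb hu (huv.trans hv))).congr fun N => ?_
  rw [← sub_div]
  congr 1
  rw [sub_eq_iff_eq_add, ← Nat.cast_add, ← Finset.card_union_of_disjoint
    (Finset.disjoint_filter.2 fun x _ h1 h2 => absurd h2 h1.1.not_gt), ← Finset.filter_or]
  congr 2
  refine Finset.filter_congr fun x _ => ?_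
  constructor
  · intro h
    rcases le_or_gt u (tail b x) with h' | h'
    exacts [Or.inl ⟨h', h⟩, Or.inr h']
  · rintro (h | h)
    exacts [h.2, h.trans_le huv]

theorem irrational_champernowne (hb : 1 < b) : Irrational (champernowne b) := by
  rintro ⟨r, hr⟩
  have hq : (0 : ℝ) < r.den := Nat.cast_pos.2 r.den_pos
  have hgap : ∀ i, ¬(1 / (2 * (r.den : ℝ)) ≤ tail b i ∧ tail b i < 1 / r.den) :=
      fun i ⟨h1, h2⟩ => by
    rw [← fract_pow_mul hb i, Int.fract, ← hr] at h1 h2
    obtain ⟨z, hz⟩ : ∃ z : ℤ, ((b : ℝ) ^ i * r - ⌊(b : ℝ) ^ i * (r : ℝ)⌋) * r.den = z := by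
      refine ⟨(b : ℤ) ^ i * r.num - ⌊(b : ℝ) ^ i * (r : ℝ)⌋ * r.den, ?_⟩
      have hd : (r : ℝ) * r.den = r.num := by exact_mod_cast Rat.mul_den_eq_num r
      push_cast
      linear_combination (b : ℝ) ^ i * hd
    rw [div_le_iff₀ (by positivity)] at h1
    rw [lt_div_iff₀ hq] at h2
    have h3 : (z : ℝ) < ((1 : ℤ) : ℝ) := by push_cast; linarith
    have h4 : ((0 : ℤ) : ℝ) < (z : ℝ) := by push_cast; linarith
    rw [Int.cast_lt] at h3 h4
    omega
  have h2q : 1 / (2 * (r.den : ℝ)) ≤ 1 / r.den := by gcongr; linarith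
  have h1q : 1 / (r.den : ℝ) ≤ 1 := (div_le_one hq).2 (by exact_mod_cast r.den_pos)
  have h := equidistributed hb (by positivity) h2q h1q
  simp only [hgap, Finset.filter_false, Finset.card_empty, Nat.cast_zero, zero_div] at h
  have := tendsto_nhds_unique tendsto_const_nhds h
  have e : 1 / (r.den : ℝ) - 1 / (2 * (r.den : ℝ)) = 1 / (2 * (r.den : ℝ)) := by field_simp; ring
  rw [e] at this
  have : 0 < 1 / (2 * (r.den : ℝ)) := by positivity
  linarith

end FA.NormalNumbers

end
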