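import Fermat.Agent.NormalNumbers.Champernowne
import Fermat.Agent.Root.SummaryRidout

/-!
# Champernowne's number is transcendental

With `y = b ^ k` the block of the numbers `c = b ^ (k - 1), …, y - 1` agrees with the expansion of
`c / (y - 1) + 1 / (y - 1) ^ 2`. So `x` has rational approximations with denominators dividing
`b ^ L (y - 1) ^ 2`, `L` the position of the block, and error `≪ b ^ (-L - k (y - c))`, against
Ridout's theorem for the primes of `b` (Mahler 1937).
-/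

set_option autoImplicit false

noncomputable section

open Filter
open scoped Topology

namespace FA.NormalNumbers

variable {b : ℕ}

theorem window_add (b i j : ℕ) :
    ∀ k, window b i (j + k) = window b i j * b ^ k + window b (i + j) k := by
  intro k
  induction k with
  | zero => simp [window, blockValue]
  | succ k ih =>
    have step : ∀ i k, window b i (k + 1) = window b i k * b + champernowneDigit b (i + k) :=
      fun _ _ => rfl
    rw [← add_assoc, step, step, ih, add_assoc i j k, pow_succ]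
    ring

/-- The numbers with `k` digits take `k` places each. -/
theorem start_add_block (hb : 1 < b) {k : ℕ} (hk : 0 < k) :
    ∀ i ≤ b ^ k - b ^ (k - 1),
      start b (b ^ (k - 1) - 1 + i) = start b (b ^ (k - 1) - 1) + k * i := by
  intro i
  induction i with
  | zero => simp
  | succ i ih =>
    intro hi
    have h1 : 1 ≤ b ^ (k - 1) := Nat.one_le_pow _ _ (by omega)
    have hlog : Nat.log b (b ^ (k - 1) - 1 + i + 1) = k - 1 :=
      Nat.log_eq_of_pow_le_of_lt_pow (by omega) (by rw [Nat.sub_add_cancel hk]; omega)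
    rw [← add_assoc, start_succ, ih (by omega), hlog, mul_add, mul_one]
    omega

theorem window_block (hb : 1 < b) {k i : ℕ} (hk : 0 < k) (hi : i < b ^ k - b ^ (k - 1)) :
    window b (start b (b ^ (k - 1) - 1) + k * i) k = b ^ (k - 1) + i := by
  have h1 : 1 ≤ b ^ (k - 1) := Nat.one_le_pow _ _ (by omega)
  have hlog : Nat.log b (b ^ (k - 1) - 1 + i + 1) = k - 1 :=
    Nat.log_eq_of_pow_le_of_lt_pow (by omega) (by rw [Nat.sub_add_cancel hk]; omega)
  have h := window_start_add (b := b) (n := b ^ (k - 1) - 1 + i) k 0 (by rw [hlog]; omega)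
  rw [Nat.add_zero, start_add_block hb hk i hi.le, hlog, Nat.sub_add_cancel hk, Nat.sub_self,
    Nat.zero_sub, pow_zero, Nat.div_one] at h
  rw [h, Nat.mod_eq_of_lt (by omega)]
  omega

/-- The value of `∑ (s + j) y ^ (-j - 1)`. -/
def seriesValue (y s : ℝ) : ℝ := s / (y - 1) + 1 / (y - 1) ^ 2

/-- The block is the beginning of the series. -/
theorem window_seriesValue (hb : 1 < b) {k : ℕ} (hk : 0 < k) :
    ∀ i ≤ b ^ k - b ^ (k - 1),
      ((b : ℝ) ^ k) ^ i * seriesValue ((b : ℝ) ^ k) ((b : ℝ) ^ (k - 1)) =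
        (window b (start b (b ^ (k - 1) - 1)) (k * i) : ℝ) +
          seriesValue ((b : ℝ) ^ k) ((b : ℝ) ^ (k - 1) + i) := by
  intro i
  induction i with
  | zero => simp [window, blockValue]
  | succ i ih =>
    intro hi
    have hy : (b : ℝ) ^ k - 1 ≠ 0 :=
      sub_ne_zero.2 (one_lt_pow₀ (by exact_mod_cast hb) hk.ne').ne'
    rw [pow_succ', mul_assoc, ih (by omega), mul_add k i, mul_one, window_add,
      window_block hb hk (by omega)]
    push_cast
    rw [seriesValue, seriesValue]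
    field_simp
    ring

theorem start_le_mul (hb : 1 < b) {k n : ℕ} (hn : n < b ^ k) : start b n ≤ k * n := by
  refine (Finset.sum_le_card_nsmul _ _ k fun m hm => ?_).trans_eq (by simp [mul_comm])
  have hm' := Finset.mem_range.1 hm
  exact (Nat.log_lt_iff_lt_pow hb m.succ_ne_zero).2 (by omega)

/-- The approximations. -/
theorem exists_rat_near (hb : 1 < b) {k : ℕ} (hk : 0 < k) :
    ∃ x : ℚ, (x.den ∣ b ^ start b (b ^ (k - 1) - 1) * (b ^ k - 1) ^ 2) ∧
      |champernowne b - x| ≤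
        3 / (b : ℝ) ^ (start b (b ^ (k - 1) - 1) + k * (b ^ k - b ^ (k - 1))) := by
  set L := start b (b ^ (k - 1) - 1) with hL
  set N := b ^ k - b ^ (k - 1) with hN
  set W := window b 0 L
  have hb' : (1 : ℝ) < b := by exact_mod_cast hb
  have hy1 : 1 ≤ b ^ k := Nat.one_le_pow _ _ (by omega)
  have hy2 : (2 : ℝ) ≤ (b : ℝ) ^ k := by
    have : (2 : ℝ) ≤ b := by exact_mod_cast hb
    exact this.trans (le_self_pow₀ (by linarith) hk.ne')
  have hcle : b ^ (k - 1) ≤ b ^ k := Nat.pow_le_pow_right (by omega) (by omega)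
  set A : ℕ := W * (b ^ k - 1) ^ 2 + b ^ (k - 1) * (b ^ k - 1) + 1 with hA
  refine ⟨Rat.divInt A ((b ^ L * (b ^ k - 1) ^ 2 : ℕ) : ℤ),
    Int.natCast_dvd_natCast.1 (Rat.den_dvd _ _), ?_⟩
  have hx : ((Rat.divInt A ((b ^ L * (b ^ k - 1) ^ 2 : ℕ) : ℤ) : ℚ) : ℝ) =
      ((W : ℝ) + seriesValue ((b : ℝ) ^ k) ((b : ℝ) ^ (k - 1))) / (b : ℝ) ^ L := by
    have hy : (b : ℝ) ^ k - 1 ≠ 0 := by linarith
    rw [Rat.divInt_eq_div, hA, seriesValue]
    push_cast [Nat.cast_sub hy1]
    field_simp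
    ring
  have hchamp : champernowne b = ((W : ℝ) + tail b L) / (b : ℝ) ^ L := by
    rw [eq_div_iff (pow_pos (by linarith) _).ne', mul_comm, champernowne, tail_window hb 0 L,
      zero_add]
  have hT := tail_window hb L (k * N)
  rw [pow_mul] at hT
  have hS := window_seriesValue hb hk N le_rfl
  rw [← hL] at hS
  set R := seriesValue ((b : ℝ) ^ k) ((b : ℝ) ^ (k - 1) + N) with hR
  have hR0 : 0 ≤ R ∧ R ≤ 3 := by
    have e : (b : ℝ) ^ (k - 1) + N = (b : ℝ) ^ k := by
      rw [hN, Nat.cast_sub hcle]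
      push_cast
      ring
    rw [hR, seriesValue, e]
    have h1 : (1 : ℝ) ≤ ((b : ℝ) ^ k - 1) ^ 2 := one_le_pow₀ (by linarith)
    have h2 : (b : ℝ) ^ k / ((b : ℝ) ^ k - 1) ≤ 2 := (div_le_iff₀ (by linarith)).2 (by linarith)
    have h3 : 1 / ((b : ℝ) ^ k - 1) ^ 2 ≤ 1 := div_le_one_of_le₀ h1 (by positivity)
    have h4 : 0 ≤ (b : ℝ) ^ k / ((b : ℝ) ^ k - 1) := div_nonneg (by linarith) (by linarith)
    exact ⟨add_nonneg h4 (by positivity), by linarith⟩
  rw [hchamp, hx, ← sub_div, add_sub_add_left_eq_sub, abs_div, abs_pow, Nat.abs_cast, pow_add,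
    pow_mul, div_le_div_iff₀ (pow_pos (by linarith) _) (by positivity)]
  have h : |((b : ℝ) ^ k) ^ N *
      (tail b L - seriesValue ((b : ℝ) ^ k) ((b : ℝ) ^ (k - 1)))| ≤ 3 := by
    rw [mul_sub, hT, hS, add_sub_add_left_eq_sub, abs_le]
    have := tail_nonneg b (L + k * N)
    have := tail_lt_one hb (L + k * N)
    constructor <;> linarith
  rw [abs_mul, abs_of_pos (pow_pos (pow_pos (show (0 : ℝ) < b by linarith) _) _)] at h
  calc |tail b L - seriesValue ((b : ℝ) ^ k) ((b : ℝ) ^ (k - 1))| *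
        ((b : ℝ) ^ L * ((b : ℝ) ^ k) ^ N)
      = ((b : ℝ) ^ k) ^ N * |tail b L - seriesValue ((b : ℝ) ^ k) ((b : ℝ) ^ (k - 1))| *
          (b : ℝ) ^ L := by ring
    _ ≤ 3 * (b : ℝ) ^ L := mul_le_mul_of_nonneg_right h (by positivity)

/-- **Mahler's theorem.** -/
theorem transcendental_champernowne (hb : 1 < b) : Transcendental ℚ (champernowne b) := by
  classical
  intro halg
  have hb0 : b ≠ 0 := by omega
  have hb' : (1 : ℝ) < b := by exact_mod_cast hb
  have hfin := FA.Summary.ridout_theorem halg b.primeFactors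
    (fun l hl => (Nat.mem_primeFactors.1 hl).1) (show (2 : ℝ) < 5 / 2 by norm_num)
  obtain ⟨δ, hδ, hsep⟩ : ∃ δ > 0, ∀ x ∈ hfin.toFinset, δ ≤ |champernowne b - (x : ℝ)| := by
    rcases hfin.toFinset.eq_empty_or_nonempty with h0 | h0
    · exact ⟨1, one_pos, fun x hx => absurd hx (by rw [h0]; exact Finset.notMem_empty x)⟩
    · obtain ⟨x, -, hmin⟩ :=
        hfin.toFinset.exists_min_image (fun x : ℚ => |champernowne b - (x : ℝ)|) h0
      exact ⟨_, abs_pos.2 (sub_ne_zero.2 ((irrational_champernowne hb).ne_rat x)), hmin⟩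
  obtain ⟨k, hkδ, hk6⟩ := (((tendsto_pow_atTop_atTop_of_one_lt hb').eventually_gt_atTop
    (3 / δ)).and (eventually_ge_atTop 6)).exists
  obtain ⟨x, hden, herr⟩ := exists_rat_near hb (show 0 < k by omega)
  set L := start b (b ^ (k - 1) - 1)
  set N := b ^ k - b ^ (k - 1)
  have hB : 14 ≤ b ^ (k - 1) :=
    (show 14 ≤ 2 ^ 5 by norm_num).trans ((Nat.pow_le_pow_right two_pos (by omega)).trans
      (Nat.pow_le_pow_left hb (k - 1)))
  have hNB : b ^ (k - 1) ≤ N := by
    have e : b ^ k = b ^ (k - 1) * b := by rw [← pow_succ, Nat.sub_add_cancel (by omega : 1 ≤ k)]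
    have := Nat.mul_le_mul_left (b ^ (k - 1)) (show 2 ≤ b by omega)
    omega
  have hexp : 3 * L + 10 * k + 4 ≤ 2 * (L + k * N) := by
    have hL : L ≤ (k - 1) * (b ^ (k - 1) - 1) :=
      start_le_mul hb (Nat.sub_lt (by omega) one_pos)
    have h1 : (k - 1) * (b ^ (k - 1) - 1) ≤ k * b ^ (k - 1) :=
      Nat.mul_le_mul (by omega) (by omega)
    have := Nat.mul_le_mul_left k hNB
    have := Nat.mul_le_mul_left k hB
    omega
  set E := L + k * N
  have h3 : (3 : ℝ) / (b : ℝ) ^ E < δ ∧ (3 : ℝ) / (b : ℝ) ^ E ≤ 1 := by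
    have hle : (b : ℝ) ^ k ≤ (b : ℝ) ^ E := pow_le_pow_right₀ hb'.le
      ((Nat.le_mul_of_pos_right k (by omega : 0 < N)).trans (Nat.le_add_left _ _))
    rw [div_lt_iff₀ (by positivity), div_le_iff₀ (by positivity), one_mul]
    rw [div_lt_iff₀ hδ] at hkδ
    refine ⟨by nlinarith, le_trans ?_ hle⟩
    have : (2 : ℝ) ^ 6 ≤ (b : ℝ) ^ k := le_trans (pow_le_pow_left₀ two_pos.le
      (by exact_mod_cast hb) 6) (pow_le_pow_right₀ hb'.le hk6)
    linarith
  refine (hsep x (hfin.mem_toFinset.2 ⟨herr.trans h3.2, ?_⟩)).not_gt (herr.trans_lt h3.1)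
  set Q := (b ^ k - 1) ^ 2
  set s := ∏ l ∈ b.primeFactors, l ^ x.den.factorization l
  have hsQ : x.den ≤ s * Q := by
    set g := Nat.gcd x.den (b ^ L)
    have hg : g ≤ s := by
      refine (FA.Roth.prod_factorization_eq hb0 (Nat.gcd_dvd_right x.den (b ^ L))).symm.le.trans ?_
      refine Finset.prod_le_prod (fun l hl => Nat.zero_le _) fun l hl => ?_
      exact Nat.pow_le_pow_right (Nat.mem_primeFactors.1 hl).1.pos
        ((Nat.factorization_le_iff_dvd (Nat.gcd_pos_of_pos_left _ x.den_pos).ne'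
          x.den_ne_zero).2 (Nat.gcd_dvd_left _ _) l)
    have hdvd : x.den ∣ g * Nat.gcd x.den Q := by
      have h := Nat.gcd_mul_right_dvd_mul_gcd x.den (b ^ L) Q
      rwa [Nat.gcd_eq_left hden] at h
    have hQ : 0 < Q := pow_pos (Nat.sub_pos_of_lt (Nat.one_lt_pow (by omega) hb)) 2
    exact (Nat.le_of_dvd (Nat.mul_pos (Nat.gcd_pos_of_pos_left _ x.den_pos)
      (Nat.gcd_pos_of_pos_left _ x.den_pos)) hdvd).trans
      (Nat.mul_le_mul hg (Nat.le_of_dvd hQ (Nat.gcd_dvd_right _ _)))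
  have hnum : (1 : ℝ) ≤
      ((∏ l ∈ b.primeFactors, l ^ x.num.natAbs.factorization l : ℕ) : ℝ) :=
    Nat.one_le_cast.2 (Finset.prod_pos fun l hl =>
      pow_pos (Nat.mem_primeFactors.1 hl).1.pos _)
  have hd0 : (0 : ℝ) < x.den := Nat.cast_pos.2 x.den_pos
  have hQb : (Q : ℝ) ≤ (b : ℝ) ^ (2 * k) := by
    rw [mul_comm 2 k, pow_mul]
    exact_mod_cast Nat.pow_le_pow_left (Nat.sub_le (b ^ k) 1) 2
  have hdb : (x.den : ℝ) ≤ (b : ℝ) ^ (L + 2 * k) := by
    rw [pow_add]
    refine le_trans ?_ (mul_le_mul_of_nonneg_left hQb (by positivity))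
    exact_mod_cast Nat.le_of_dvd (Nat.mul_pos (pow_pos (by omega) _)
      (pow_pos (Nat.sub_pos_of_lt (Nat.one_lt_pow (by omega) hb)) 2)) hden
  have hs : (x.den : ℝ) ≤ (s : ℝ) * (b : ℝ) ^ (2 * k) :=
    le_trans (by exact_mod_cast hsQ) (mul_le_mul_of_nonneg_left hQb (Nat.cast_nonneg s))
  refine herr.trans_lt (lt_of_lt_of_le ?_
    (mul_le_mul_of_nonneg_right (le_mul_of_one_le_left (Nat.cast_nonneg s) hnum)
      (Real.rpow_nonneg hd0.le _)))
  calc (3 : ℝ) / (b : ℝ) ^ E < (b : ℝ) ^ (2 : ℕ) / (b : ℝ) ^ E := by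
        refine div_lt_div_of_pos_right ?_ (by positivity)
        have : (2 : ℝ) ≤ b := by exact_mod_cast hb
        nlinarith
    _ ≤ (b : ℝ) ^ (-((3 / 2 : ℝ) * (L + 2 * k : ℕ) + (2 * k : ℕ))) := by
        rw [← Real.rpow_natCast, ← Real.rpow_natCast, ← Real.rpow_sub (by linarith)]
        refine Real.rpow_le_rpow_of_exponent_le hb'.le ?_
        have : (3 * L + 10 * k + 4 : ℝ) ≤ 2 * E := by exact_mod_cast hexp
        push_cast
        linarith
    _ = ((b : ℝ) ^ (L + 2 * k)) ^ (-(3 / 2 : ℝ)) / (b : ℝ) ^ (2 * k) := by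
        rw [← Real.rpow_natCast, ← Real.rpow_natCast, ← Real.rpow_mul (by linarith),
          ← Real.rpow_sub (by linarith)]
        congr 1
        ring
    _ ≤ (x.den : ℝ) ^ (-(3 / 2 : ℝ)) / (b : ℝ) ^ (2 * k) :=
        div_le_div_of_nonneg_right (Real.rpow_le_rpow_of_nonpos hd0 hdb (by norm_num))
          (by positivity)
    _ ≤ (s : ℝ) * (x.den : ℝ) ^ (-(5 / 2 : ℝ)) := by
        rw [div_le_iff₀ (by positivity), show -(3 / 2 : ℝ) = 1 + -(5 / 2) by norm_num,
          Real.rpow_add hd0, Real.rpow_one, mul_right_comm]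
        exact mul_le_mul_of_nonneg_right hs (Real.rpow_nonneg hd0.le _)

end FA.NormalNumbers

end
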